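/-
Programme MAZ (S15), brick T1A-X4 (helper97): **level transfer of flat Kummer classes** (abstract).

Vocabulary of `MAZ/FlatCond42/ExtMod.lean` (`IsFlatCochain p N c` : the extension module `E_c = V × ℤ/N` of
the cochain `c : G_ℚ → V` has a finite flat model over `ℤ_(p)`).

* `isFlatCochain_of_dvd'`   : change of modulus `N ⇝ M` for `M ∣ N` when `M` kills the values of `c`;
* `isFlatCochain_zsmul`     : `u • c` is flat when `c` is and `V` has a flat model (`u : ℤ`);
* `isFlatCochain_of_smul_coprime` : if `d' • c` is flat, `d'` prime to `M`, `M` kills `V`, `V` flat, then `c`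
  is flat (modulus `M`);
* **`isFlatCochain_of_level_transfer`** : the situation of T1A-X4.  `Vk = J_p[r^k] ⊂ Vke = J_p[r^(k+e)]`
  (inclusion `i`), `VM = J_M[r^(k+e)]` (`M = 4p` or `9p`), degeneracy maps `a = π^* : Vke → VM`,
  `b = π_* : VM → Vke` with `b ∘ a = d`, `d = r^e * d'`, `r ∤ d'`; Kummer cochains `ck`, `cke` of a rational
  point at the moduli `r^k`, `r^(k+e)` with `i ∘ ck = r^e • cke`.  If the push-forward `a ∘ cke` is flat at
  level `M` (T1A-X1..X3), then `ck` is flat at level `p`.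
-/
import Fermat.Agent.MAZ.FlatCond42.ExtMod

set_option autoImplicit false

namespace Fermat.Agent.MAZ.KumFlat97

open Fermat.Agent.Flat44 Fermat.Agent.MAZ.FlatCond42

variable {p : ℕ} {V : Type} [AddCommGroup V] [DistribMulAction GQ V]

/-- **Change of modulus**: `E_c` over `ℤ/N` surjects onto `E_c` over `ℤ/M` when `M ∣ N` and `M` kills the
values of `c`. -/
theorem isFlatCochain_of_dvd' {M N : ℕ} [NeZero M] [NeZero N] (hMN : M ∣ N) {c : GQ → V}
    (hc : ∀ σ, M • c σ = 0) (h : IsFlatCochain p N c) : IsFlatCochain p M c := by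
  have hval : ∀ (a : ZMod N) (σ : GQ), (ZMod.castHom hMN (ZMod M) a).val • c σ = a.val • c σ := by
    intro a σ
    have h1 : (ZMod.castHom hMN (ZMod M) a).val = a.val % M := by
      rw [ZMod.castHom_apply, ← ZMod.natCast_val, ZMod.val_natCast]
    rw [h1]
    conv_rhs => rw [← Nat.mod_add_div a.val M]
    rw [add_nsmul, mul_nsmul, hc, smul_zero, add_zero]
  let g : V × ZMod N →+ V × ZMod M :=
    { toFun := fun e => (e.1, ZMod.castHom hMN (ZMod M) e.2)
      map_zero' := by
        apply Prod.ext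
        · rfl
        · exact map_zero _
      map_add' := fun e e' => by
        apply Prod.ext
        · rfl
        · exact map_add _ e.2 e'.2 }
  refine hasFlatModel_of_surjective h g (fun e => ⟨(e.1, (e.2.val : ZMod N)), ?_⟩) fun σ e => ?_
  · apply Prod.ext
    · rfl
    · show ZMod.castHom hMN (ZMod M) ((e.2.val : ZMod N)) = e.2
      rw [map_natCast, ZMod.natCast_zmod_val]
  · apply Prod.ext
    · show σ • e.1 + e.2.val • c σ = σ • e.1 + (ZMod.castHom hMN (ZMod M) e.2).val • c σ
      rw [hval]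
    · rfl

/-- Multiplication by an integer, as an equivariant endomorphism. -/
def zsmulHom (V : Type) [AddCommGroup V] [DistribMulAction GQ V] (u : ℤ) : V →+[GQ] V where
  toFun x := u • x
  map_smul' σ x := by
    show u • (σ • x) = σ • (u • x)
    exact (map_zsmul (DistribSMul.toAddMonoidHom V σ) u x).symm
  map_zero' := smul_zero u
  map_add' := smul_add u

@[simp] theorem zsmulHom_apply (u : ℤ) (x : V) : zsmulHom V u x = u • x := rfl

/-- An integer multiple of a flat class is flat. -/
theorem isFlatCochain_zsmul {N : ℕ} {c : GQ → V} (h : IsFlatCochain p N c)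
    (hV : HasFlatModel p V (modAct V)) (u : ℤ) : IsFlatCochain p N (fun σ => u • c σ) :=
  h.map hV (zsmulHom V u)

/-- If `d' • c` is flat with `d'` prime to the modulus `M` which kills `V`, then `c` is flat. -/
theorem isFlatCochain_of_smul_coprime {M : ℕ} {c : GQ → V} (d' : ℕ) (hd' : Nat.Coprime d' M)
    (hkill : ∀ x : V, M • x = 0) (hV : HasFlatModel p V (modAct V))
    (h : IsFlatCochain p M (fun σ => d' • c σ)) : IsFlatCochain p M c := by
  -- Bézout: `u * d' + v * M = 1`
  have hb : (d' : ℤ) * Nat.gcdA d' M + (M : ℤ) * Nat.gcdB d' M = 1 := by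
    have := Nat.gcd_eq_gcd_ab d' M
    rw [hd'.gcd_eq_one, Nat.cast_one] at this
    exact this.symm
  have h1 := isFlatCochain_zsmul h hV (Nat.gcdA d' M)
  have h2 : (fun σ => Nat.gcdA d' M • (d' • c σ)) = c := by
    funext σ
    have hM0 : ((M : ℤ) * Nat.gcdB d' M) • c σ = 0 := by
      rw [mul_comm, mul_smul, natCast_zsmul, hkill, smul_zero]
    calc Nat.gcdA d' M • (d' • c σ)
        = ((d' : ℤ) * Nat.gcdA d' M) • c σ := by
          rw [mul_comm, mul_smul, natCast_zsmul]
      _ = ((d' : ℤ) * Nat.gcdA d' M) • c σ + ((M : ℤ) * Nat.gcdB d' M) • c σ := by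
          rw [hM0, add_zero]
      _ = c σ := by rw [← add_smul, hb, one_smul]
  rw [h2] at h1
  exact h1

/-- **T1A-X4: level transfer of flat Kummer classes.** -/
theorem isFlatCochain_of_level_transfer {r k e d d' : ℕ} [NeZero r]
    {Vk Vke VM : Type} [AddCommGroup Vk] [DistribMulAction GQ Vk]
    [AddCommGroup Vke] [DistribMulAction GQ Vke] [AddCommGroup VM] [DistribMulAction GQ VM]
    (i : Vk →+[GQ] Vke) (hi : Function.Injective i)
    (a : Vke →+[GQ] VM) (b : VM →+[GQ] Vke) (hba : ∀ x : Vke, b (a x) = d • x)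
    (hd : d = r ^ e * d') (hd' : Nat.Coprime d' r)
    (hVk : HasFlatModel p Vk (modAct Vk)) (hVke : HasFlatModel p Vke (modAct Vke))
    (hkill : ∀ x : Vk, r ^ k • x = 0)
    (ck : GQ → Vk) (cke : GQ → Vke) (hrel : ∀ σ, i (ck σ) = r ^ e • cke σ)
    (hflat : IsFlatCochain p (r ^ (k + e)) (fun σ => a (cke σ))) :
    IsFlatCochain p (r ^ k) ck := by
  have hr0 : r ≠ 0 := NeZero.ne r
  have : NeZero (r ^ k) := ⟨pow_ne_zero k hr0⟩
  have : NeZero (r ^ (k + e)) := ⟨pow_ne_zero (k + e) hr0⟩
  -- push forward along `b`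
  have h1 : IsFlatCochain p (r ^ (k + e)) (fun σ => b (a (cke σ))) := hflat.map hVke b
  -- `b ∘ a ∘ cke = i ∘ (d' • ck)`
  have h2 : (fun σ => b (a (cke σ))) = fun σ => i (d' • ck σ) := by
    funext σ
    rw [hba, hd, mul_nsmul, ← hrel, map_nsmul]
  rw [h2] at h1
  -- pull back along `i`
  have h3 : IsFlatCochain p (r ^ (k + e)) (fun σ => d' • ck σ) :=
    IsFlatCochain.of_map_injective i hi h1
  -- change of modulus
  have h4 : IsFlatCochain p (r ^ k) (fun σ => d' • ck σ) :=
    isFlatCochain_of_dvd' (pow_dvd_pow r (Nat.le_add_right k e)) (fun σ => hkill _) h3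
  -- divide by `d'`
  exact isFlatCochain_of_smul_coprime d' (Nat.Coprime.pow_right k hd') hkill hVk h4

end Fermat.Agent.MAZ.KumFlat97
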