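/-
Programme MAZ (S15), brick T1A-X4, ambient form (helper97): **level transfer of flat Kummer classes** in the
vocabulary of `MAZ/Kum5/Abstract.lean` (helper5: `tors J N`, `kumCocycle`).

`Jp`, `JM` two smooth divisible `G_ℚ`-modules (think `J₀(p)(ℚ̄)`, `J₀(M)(ℚ̄)`, `M = 4p` or `9p`), degeneracy maps
`a = π^* : Jp → JM`, `b = π_* : JM → Jp` with `b ∘ a = d = r^e * d'`, `r ∤ d'`.  Let `x ∈ Jp` be `G_ℚ`-fixed
and `y ∈ Jp` with `r^(k+e) • y = x`.  If the Kummer cocycle of `a x` at the modulus `r^(k+e)` attached to the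
division point `a y` is flat (level `M`: T1A-X1..X3), then the Kummer cocycle of `x` at the modulus `r^k`
attached to `r^e • y` is flat (level `p`): `kumCocycle_flat_of_level_transfer`.
-/
import Fermat.Agent.MAZ.KumFlat97.Transfer
import Fermat.Agent.MAZ.Kum5.Abstract
import Fermat.Agent.MAZ.FlatCond42.System

set_option autoImplicit false

noncomputable section

namespace Fermat.Agent.MAZ.KumFlat97

open Fermat.Agent.Flat44 Fermat.Agent.MAZ.FlatCond42 Fermat.Agent.MAZ.SelCoh42 Fermat.Agent.MAZ.Kum5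

section Maps

variable {J J' : Type} [AddCommGroup J] [DistribMulAction GQ J] [AddCommGroup J']
  [DistribMulAction GQ J']

/-- The restriction of an equivariant map to the `N`-torsion. -/
def torsMap₂ (f : J →+[GQ] J') (N : ℕ) : (tors (Γ := GQ) J N).W →+[GQ] (tors (Γ := GQ) J' N).W where
  toFun x := ⟨f x.1, by
    show N • f x.1 = 0
    rw [← map_nsmul, (x.2 : N • x.1 = 0), map_zero]⟩
  map_smul' g x := Subtype.ext (map_smul f g x.1)
  map_zero' := Subtype.ext (map_zero f)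
  map_add' x y := Subtype.ext (map_add f x.1 y.1)

@[simp] theorem torsMap₂_coe (f : J →+[GQ] J') (N : ℕ) (x : (tors (Γ := GQ) J N).W) :
    ((torsMap₂ f N x : (tors (Γ := GQ) J' N).W) : J') = f x.1 := rfl

/-- The inclusion `J[M] ⊆ J[N]` for `M ∣ N`. -/
def torsIncl {M N : ℕ} (hMN : M ∣ N) : (tors (Γ := GQ) J M).W →+[GQ] (tors (Γ := GQ) J N).W where
  toFun x := ⟨x.1, by
    obtain ⟨t, rfl⟩ := hMN
    show (M * t) • x.1 = 0
    rw [mul_nsmul, (x.2 : M • x.1 = 0), smul_zero]⟩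
  map_smul' _ _ := rfl
  map_zero' := rfl
  map_add' _ _ := rfl

@[simp] theorem torsIncl_coe {M N : ℕ} (hMN : M ∣ N) (x : (tors (Γ := GQ) J M).W) :
    ((torsIncl hMN x : (tors (Γ := GQ) J N).W) : J) = x.1 := rfl

theorem torsIncl_injective {M N : ℕ} (hMN : M ∣ N) :
    Function.Injective (torsIncl (J := J) hMN) := fun _ _ h =>
  Subtype.ext (congrArg (fun z : (tors (Γ := GQ) J N).W => (z : J)) h)

end Maps

variable {ℓ r k e d d' : ℕ} [NeZero r]
  {Jp JM : Type} [AddCommGroup Jp] [DistribMulAction GQ Jp] [AddCommGroup JM] [DistribMulAction GQ JM]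

/-- **T1A-X4, ambient form.** -/
theorem kumCocycle_flat_of_level_transfer
    (hdivk : ∀ x : Jp, ∃ y : Jp, r ^ k • y = x) (hdivke : ∀ x : Jp, ∃ y : Jp, r ^ (k + e) • y = x)
    (hdivM : ∀ x : JM, ∃ y : JM, r ^ (k + e) • y = x)
    (hsmp : IsSmooth galLevel Jp) (hsmM : IsSmooth galLevel JM)
    (a : Jp →+[GQ] JM) (b : JM →+[GQ] Jp) (hba : ∀ x : Jp, b (a x) = d • x)
    (hd : d = r ^ e * d') (hd' : Nat.Coprime d' r)
    (hVk : HasFlatModel ℓ (tors (Γ := GQ) Jp (r ^ k)).W (modAct _))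
    (hVke : HasFlatModel ℓ (tors (Γ := GQ) Jp (r ^ (k + e))).W (modAct _))
    (y : Jp) (hy : ∀ g : GQ, g • (r ^ (k + e) • y) = r ^ (k + e) • y)
    (hyk : ∀ g : GQ, g • (r ^ k • (r ^ e • y)) = r ^ k • (r ^ e • y))
    (hay : ∀ g : GQ, g • (r ^ (k + e) • a y) = r ^ (k + e) • a y)
    (hflat : IsFlatCochain ℓ (r ^ (k + e)) (kumCocycle galLevel hdivM hsmM (a y) hay).1) :
    IsFlatCochain ℓ (r ^ k) (kumCocycle galLevel hdivk hsmp (r ^ e • y) hyk).1 := by
  refine isFlatCochain_of_level_transfer (r := r) (k := k) (e := e) (d := d) (d' := d')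
    (torsIncl (J := Jp) (pow_dvd_pow r (Nat.le_add_right k e)))
    (torsIncl_injective _) (torsMap₂ a (r ^ (k + e))) (torsMap₂ b (r ^ (k + e)))
    (fun x => Subtype.ext (hba x.1)) hd hd' hVk hVke (fun x => Subtype.ext x.2)
    (kumCocycle galLevel hdivk hsmp (r ^ e • y) hyk).1
    (kumCocycle galLevel hdivke hsmp y hy).1 (fun σ => ?_) ?_
  · apply Subtype.ext
    rw [torsIncl_coe, kumCocycle_apply]
    show σ • r ^ e • y - r ^ e • y = r ^ e • ((kumCocycle galLevel hdivke hsmp y hy).1 σ : Jp)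
    rw [kumCocycle_apply, smul_sub, smul_comm]
  · have h1 : (fun σ => torsMap₂ a (r ^ (k + e)) ((kumCocycle galLevel hdivke hsmp y hy).1 σ))
        = (kumCocycle galLevel hdivM hsmM (a y) hay).1 := by
      funext σ
      apply Subtype.ext
      rw [torsMap₂_coe, kumCocycle_apply, kumCocycle_apply, map_sub, map_smul]
    rw [h1]
    exact hflat

end Fermat.Agent.MAZ.KumFlat97
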