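/-
Programme MAZ (S15), brick K2-ASM (helper97): **assembly skeleton of (K2)** — Kummer classes of rational
points are flat at `ℓ`.

Consumer: helper42's `FlatCond42.kumSel_mem_selF`, hypothesis
`hK2 : IsFlatCochain r N (kumCocycle galLevel hdiv hsm z _).1`.

Inputs: X1/X2 + generic pipeline (helper43, `KumFlat43/{ExtByPoint,KummerEmb,Restrict,Flat}`), X4 (helper97,
`KumFlat97/{Transfer,Ambient}`), and X3 as an explicit hypothesis in the two shapes

* (small) `D : ModCoordData ℓ A V _` for `V = J_M[N]` + a realisation `y₀ : A` of the division point + centres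
  for `D.emb v + j • y₀`                     (inputs of `KumFlat43.kummerModCoordData`);
* (sub)   `D : ModCoordData ℓ A ↥S _` for a `G_ℓ`-stable subgroup `S ≤ J_M` containing `J_M[N]` and the division
  point (shape of helper59's `KumFlat59.modCoordData_of_package_sub`, `S = V ⊔ ℤ w`;
  `KumFlat43.kummerModCoordData_of_big`).

Results:

* `isFlatCochain_of_kummerData`, `isFlatCochain_of_kummerData_big` : flatness of a level cocycle `c ∈ Z¹` of a
  finite smooth module from X3 (small / big);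
* `kumCocycle_flat_levelM`, `kumCocycle_flat_levelM_of_sub` : **(K2) at level `M`**;
* `kumCocycle_flat_of_levelM` : descent to level `p` for ANY division point `z` of the rational point
  (X4 + `IsFlatCochain.congr`), with level-`M` flatness needed for ONE division point `a y₁`;
* `kumCocycle_flat_of_levelM_inj` : descent to level `p` when `π^*` is injective on `N`-torsion (the case of
  `M = auxLevel ℓ p`, `PullbackInj12.levelPullback_auxLevel_eq_zero`): `IsFlatCochain.of_map_injective`, no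
  push-forward and no change of modulus;
* **`hK2_of_sub_inj`**, `hK2_of_X3_inj`, `hK2_of_X3`, `hK2_of_sub` : the exact shape of `hK2` in
  `FlatCond42.kumSel_mem_selF`.
-/
import Fermat.Agent.MAZ.KumFlat97.Ambient
import Fermat.Agent.MAZ.KumFlat43.Flat
import Fermat.Agent.MAZ.KumFlat43.Restrict

set_option autoImplicit false

noncomputable section

namespace Fermat.Agent.MAZ.KumFlat97

open Fermat.Agent.Flat44 Fermat.Agent.MAZ.FlatCond42 Fermat.Agent.MAZ.SelCoh42 Fermat.Agent.MAZ.Kum5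
open Fermat.Agent.TW.B5.Iface Fermat.Agent.T1.Assembly41 Fermat.Agent.MAZ.KumFlat43

/-! ### Level cocycles of smooth modules -/

section Ext

variable {N : ℕ} [NeZero N] {V : Type} [AddCommGroup V] [DistribMulAction GQ V]

/-- Open stabilisers, in the `IntermediateField` form of `Glue44.glue`. -/
theorem open_of_isSmooth (hsm : IsSmooth galLevel V) (x : V) :
    ∃ L : IntermediateField ℚ Flat44.Qb, FiniteDimensional ℚ L ∧
      ∀ σ : GQ, (∀ e ∈ L, σ e = e) → σ • x = x := by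
  obtain ⟨_, ⟨F, hF, rfl⟩, hFv⟩ := hsm x
  exact ⟨F, hF, fun σ hσ => hFv σ ((IntermediateField.mem_fixingSubgroup_iff F σ).2 hσ)⟩

/-- A level cocycle vanishes on the fixing subgroup of a finite extension. -/
theorem open_of_Z1 (c : Z1 galLevel V) :
    ∃ L : IntermediateField ℚ Flat44.Qb, FiniteDimensional ℚ L ∧
      ∀ σ : GQ, (∀ e ∈ L, σ e = e) → c.1 σ = 0 := by
  obtain ⟨_, ⟨F, hF, rfl⟩, hFc⟩ := c.2.2
  exact ⟨F, hF, fun σ hσ => hFc σ ((IntermediateField.mem_fixingSubgroup_iff F σ).2 hσ)⟩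

/-- **Flatness of the class of a level cocycle from arithmetic local analytic group data** for its
extension module. -/
theorem isFlatCochain_of_Z1_modCoordData (ℓ : ℕ) [Fact ℓ.Prime] [Finite V]
    (hkill : ∀ v : V, N • v = 0) (hsm : IsSmooth galLevel V) (c : Z1 galLevel V)
    {A : Type} [AddCommGroup A]
    (D : ModCoordData ℓ A (V × ZMod N)
      (extActLoc ℓ (fun σ => modAct V (localGaloisToGlobal ℓ σ))
        (fun σ => c.1 (localGaloisToGlobal ℓ σ)) N)) :
    IsFlatCochain ℓ N c.1 :=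
  isFlatCochain_of_modCoordData N c.1 c.2.1 ℓ hkill (open_of_isSmooth hsm) (open_of_Z1 c) D

/-- **X1 + X2 + X3 (small) ⟹ flat**: the class of a level cocycle `c` is flat at `ℓ`, given arithmetic local
analytic group data `D` for `V` (inside an ambient group `A`), a point `y₀ : A` with `N • y₀` fixed by `G_ℓ`
whose Kummer cocycle is `c` restricted to `G_ℓ`, and centres for the points `D.emb v + j • y₀`. -/
theorem isFlatCochain_of_kummerData (ℓ : ℕ) [Fact ℓ.Prime] [Finite V]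
    (hkill : ∀ v : V, N • v = 0) (hsm : IsSmooth galLevel V) (c : Z1 galLevel V)
    {A : Type} [AddCommGroup A]
    (D : ModCoordData ℓ A V (fun σ => modAct V (localGaloisToGlobal ℓ σ)))
    (y₀ : A) (hx₀ : ∀ σ, D.act σ (N • y₀) = N • y₀)
    (hc : ∀ σ, D.emb (c.1 (localGaloisToGlobal ℓ σ)) = D.act σ y₀ - y₀)
    (hcen : ∀ (v : V) (j : ℕ), ∃ z : A, D.emb v + j • y₀ - z ∈ D.J1 ∧
      ∃ E : IntermediateField ℚ_[ℓ] (Kbar ℓ), FiniteDimensional ℚ_[ℓ] E ∧ IsUnramifiedField ℓ E ∧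
        ∀ σ : Gp ℓ, (∀ e ∈ E, σ e = e) → D.act σ z = z) :
    IsFlatCochain ℓ N c.1 :=
  isFlatCochain_of_Z1_modCoordData ℓ hkill hsm c
    (kummerModCoordData ℓ D (rfl : N • y₀ = N • y₀) hx₀ (fun σ => c.1 (localGaloisToGlobal ℓ σ)) hc hcen)

/-- **X1 + X2 + X3 (big) ⟹ flat**: the same, from arithmetic local analytic group data for a BIG `G_ℓ`-module
`S` containing `V` (via `f`), a point `y₀ : S` with `N • y₀` fixed whose Kummer cocycle is `c`.  (The centres
are part of `D`.) -/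
theorem isFlatCochain_of_kummerData_big (ℓ : ℕ) [Fact ℓ.Prime] [Finite V]
    (hkill : ∀ v : V, N • v = 0) (hsm : IsSmooth galLevel V) (c : Z1 galLevel V)
    {A : Type} [AddCommGroup A] {S : Type} [AddCommGroup S] {actS : Gp ℓ → S → S}
    (D : ModCoordData ℓ A S actS)
    (f : V →+ S) (hf : Function.Injective f)
    (hfσ : ∀ (σ : Gp ℓ) (v : V), f (localGaloisToGlobal ℓ σ • v) = actS σ (f v))
    (y₀ : S) (hx₀ : ∀ σ, actS σ (N • y₀) = N • y₀)
    (hc : ∀ σ, f (c.1 (localGaloisToGlobal ℓ σ)) = actS σ y₀ - y₀) :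
    IsFlatCochain ℓ N c.1 :=
  isFlatCochain_of_Z1_modCoordData ℓ hkill hsm c
    (kummerModCoordData_of_big ℓ D (fun σ => modAct V (localGaloisToGlobal ℓ σ)) f hf hfσ y₀ (N • y₀) rfl
      hx₀ (fun σ => c.1 (localGaloisToGlobal ℓ σ)) hc)

end Ext

/-! ### (K2) at level `M` -/

section LevelM

variable {ℓ : ℕ} [Fact ℓ.Prime] {JM : Type} [AddCommGroup JM] [DistribMulAction GQ JM]

/-- **The statement of brick X3 (small shape)** for a division point `w : J_M` (modulus `N`) of a rational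
point: arithmetic local analytic group data `D` for the `G_ℓ`-module `J_M[N]` inside an ambient group `A`,
together with a point `y₀ : A` realising `w` (`N • y₀` is `G_ℓ`-fixed, the Kummer cocycles agree) and centres
for the points `D.emb v + j • y₀`.  These are exactly the inputs of `KumFlat43.kummerModCoordData`. -/
def KummerX3 (ℓ : ℕ) [Fact ℓ.Prime] (N : ℕ) (JM : Type) [AddCommGroup JM] [DistribMulAction GQ JM]
    (w : JM) : Prop :=
  ∃ (A : Type) (_ : AddCommGroup A)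
    (D : ModCoordData ℓ A (tors (Γ := GQ) JM N).W
      (fun σ => modAct (tors (Γ := GQ) JM N).W (localGaloisToGlobal ℓ σ))) (y₀ : A),
    (∀ σ, D.act σ (N • y₀) = N • y₀) ∧
    (∀ (σ : Gp ℓ) (t : (tors (Γ := GQ) JM N).W), (t : JM) = localGaloisToGlobal ℓ σ • w - w →
      D.emb t = D.act σ y₀ - y₀) ∧
    ∀ (v : (tors (Γ := GQ) JM N).W) (j : ℕ), ∃ z : A, D.emb v + j • y₀ - z ∈ D.J1 ∧
      ∃ E : IntermediateField ℚ_[ℓ] (Kbar ℓ), FiniteDimensional ℚ_[ℓ] E ∧ IsUnramifiedField ℓ E ∧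
        ∀ σ : Gp ℓ, (∀ e ∈ E, σ e = e) → D.act σ z = z

/-- **The statement of brick X3 (sub shape)** for a division point `w : J_M` (modulus `N`): arithmetic local
analytic group data for a `G_ℓ`-stable subgroup `S ≤ J_M` containing `J_M[N]` and `w` (think `S = J_M[N] ⊔ ℤ w`;
output shape of `KumFlat59.modCoordData_of_package_sub`). -/
def KummerX3Sub (ℓ : ℕ) [Fact ℓ.Prime] (N : ℕ) (JM : Type) [AddCommGroup JM] [DistribMulAction GQ JM]
    (w : JM) : Prop :=
  ∃ (S : AddSubgroup JM) (hS : ∀ (σ : Gp ℓ) (y : JM), y ∈ S → localGaloisToGlobal ℓ σ • y ∈ S),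
    (tors (Γ := GQ) JM N).W ≤ S ∧ w ∈ S ∧
    ∃ (A : Type) (_ : AddCommGroup A),
      Nonempty (ModCoordData ℓ A ↥S (fun σ y => ⟨localGaloisToGlobal ℓ σ • (y : JM), hS σ y y.2⟩))

variable {N : ℕ} [NeZero N]

/-- **(K2) at level `M`, small shape**: the Kummer cocycle attached to a division point `w` of a rational
point of `J_M` is flat at `ℓ`, given X3 for `w` and the finiteness of `J_M[N]`. -/
theorem kumCocycle_flat_levelM
    (hdivM : ∀ x : JM, ∃ y : JM, N • y = x) (hsmM : IsSmooth galLevel JM)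
    [Finite (tors (Γ := GQ) JM N).W]
    (w : JM) (hw : ∀ g : GQ, g • (N • w) = N • w) (hX3 : KummerX3 ℓ N JM w) :
    IsFlatCochain ℓ N (kumCocycle galLevel hdivM hsmM w hw).1 := by
  obtain ⟨A, _, D, y₀, hx₀, hc, hcen⟩ := hX3
  refine isFlatCochain_of_kummerData ℓ (fun v => Subtype.ext v.2)
    ((tors (Γ := GQ) JM N).isSmooth_sub galLevel hsmM) (kumCocycle galLevel hdivM hsmM w hw) D y₀ hx₀
    (fun σ => hc σ _ ?_) hcen
  rw [kumCocycle_apply]

/-- **(K2) at level `M`, sub shape.** -/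
theorem kumCocycle_flat_levelM_of_sub
    (hdivM : ∀ x : JM, ∃ y : JM, N • y = x) (hsmM : IsSmooth galLevel JM)
    [Finite (tors (Γ := GQ) JM N).W]
    (w : JM) (hw : ∀ g : GQ, g • (N • w) = N • w) (hX3 : KummerX3Sub ℓ N JM w) :
    IsFlatCochain ℓ N (kumCocycle galLevel hdivM hsmM w hw).1 := by
  obtain ⟨S, hS, hVS, hwS, A, _, ⟨D⟩⟩ := hX3
  refine isFlatCochain_of_kummerData_big ℓ (fun v => Subtype.ext v.2)
    ((tors (Γ := GQ) JM N).isSmooth_sub galLevel hsmM) (kumCocycle galLevel hdivM hsmM w hw) D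
    (AddSubgroup.inclusion hVS) (AddSubgroup.inclusion_injective hVS) (fun σ v => rfl)
    (⟨w, hwS⟩ : ↥S) (fun σ => ?_) (fun σ => ?_)
  · apply Subtype.ext
    show localGaloisToGlobal ℓ σ • ((N • (⟨w, hwS⟩ : ↥S) : ↥S) : JM) = ((N • (⟨w, hwS⟩ : ↥S) : ↥S) : JM)
    rw [AddSubgroup.coe_nsmul]
    exact hw _
  · apply Subtype.ext
    show (((kumCocycle galLevel hdivM hsmM w hw).1 (localGaloisToGlobal ℓ σ) :
      (tors (Γ := GQ) JM N).W) : JM) = localGaloisToGlobal ℓ σ • w - w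
    rw [kumCocycle_apply]

end LevelM

/-! ### Descent to level `p` along an injective pull-back -/

section Inj

variable {ℓ : ℕ} {N : ℕ} [NeZero N]
  {Jp JM : Type} [AddCommGroup Jp] [DistribMulAction GQ Jp] [AddCommGroup JM] [DistribMulAction GQ JM]

omit [NeZero N] in
/-- **(K2) from level-`M` flatness, injective form.**  If `a = π^* : J_p → J_M` is injective on `N`-torsion
(`ES/RED/PullbackInj12.levelPullback_auxLevel_eq_zero` for `M = auxLevel ℓ p`), the Kummer cocycle of `z` is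
flat as soon as the Kummer cocycle of `a z` is.  (No push-forward, no change of modulus.) -/
theorem kumCocycle_flat_of_levelM_inj
    (hdivp : ∀ x : Jp, ∃ y : Jp, N • y = x) (hdivM : ∀ x : JM, ∃ y : JM, N • y = x)
    (hsmp : IsSmooth galLevel Jp) (hsmM : IsSmooth galLevel JM)
    (a : Jp →+[GQ] JM) (hinj : ∀ x : Jp, N • x = 0 → a x = 0 → x = 0)
    (z : Jp) (hz : ∀ g : GQ, g • (N • z) = N • z)
    (haz : ∀ g : GQ, g • (N • a z) = N • a z)
    (hflatM : IsFlatCochain ℓ N (kumCocycle galLevel hdivM hsmM (a z) haz).1) :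
    IsFlatCochain ℓ N (kumCocycle galLevel hdivp hsmp z hz).1 := by
  refine IsFlatCochain.of_map_injective (torsMap₂ a N) ?_ ?_
  · rw [injective_iff_map_eq_zero]
    intro v hv
    exact Subtype.ext (hinj v.1 v.2 (congrArg Subtype.val hv))
  · have h1 : (fun σ => torsMap₂ a N ((kumCocycle galLevel hdivp hsmp z hz).1 σ))
        = (kumCocycle galLevel hdivM hsmM (a z) haz).1 := by
      funext σ
      apply Subtype.ext
      rw [torsMap₂_coe, kumCocycle_apply, kumCocycle_apply, map_sub, map_smul]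
    rw [h1]
    exact hflatM

variable [Fact ℓ.Prime]

/-- **(K2) in the shape of `FlatCond42.kumSel_mem_selF`, injective pull-back, X3 in the sub shape**: `x` a
rational point of `J_p`, `z` ANY division point, `N • z = x`; X3 for `a z`. -/
theorem hK2_of_sub_inj
    (hdivp : ∀ x : Jp, ∃ y : Jp, N • y = x) (hdivM : ∀ x : JM, ∃ y : JM, N • y = x)
    (hsmp : IsSmooth galLevel Jp) (hsmM : IsSmooth galLevel JM)
    (a : Jp →+[GQ] JM) (hinj : ∀ x : Jp, N • x = 0 → a x = 0 → x = 0)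
    [Finite (tors (Γ := GQ) JM N).W]
    (x : Inv (⊤ : Subgroup GQ) Jp) (z : Jp) (hz : N • z = x.1)
    (hX3 : KummerX3Sub ℓ N JM (a z)) :
    IsFlatCochain ℓ N (kumCocycle galLevel hdivp hsmp z (fun g => by
      rw [hz]; exact mem_Inv_top.1 x.2 g)).1 := by
  have haz : ∀ g : GQ, g • (N • a z) = N • a z := fun g => by
    rw [← map_nsmul, ← map_smul, hz, mem_Inv_top.1 x.2 g]
  exact kumCocycle_flat_of_levelM_inj hdivp hdivM hsmp hsmM a hinj z _ haz
    (kumCocycle_flat_levelM_of_sub hdivM hsmM (a z) haz hX3)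

/-- The same with X3 in the small shape. -/
theorem hK2_of_X3_inj
    (hdivp : ∀ x : Jp, ∃ y : Jp, N • y = x) (hdivM : ∀ x : JM, ∃ y : JM, N • y = x)
    (hsmp : IsSmooth galLevel Jp) (hsmM : IsSmooth galLevel JM)
    (a : Jp →+[GQ] JM) (hinj : ∀ x : Jp, N • x = 0 → a x = 0 → x = 0)
    [Finite (tors (Γ := GQ) JM N).W]
    (x : Inv (⊤ : Subgroup GQ) Jp) (z : Jp) (hz : N • z = x.1)
    (hX3 : KummerX3 ℓ N JM (a z)) :
    IsFlatCochain ℓ N (kumCocycle galLevel hdivp hsmp z (fun g => by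
      rw [hz]; exact mem_Inv_top.1 x.2 g)).1 := by
  have haz : ∀ g : GQ, g • (N • a z) = N • a z := fun g => by
    rw [← map_nsmul, ← map_smul, hz, mem_Inv_top.1 x.2 g]
  exact kumCocycle_flat_of_levelM_inj hdivp hdivM hsmp hsmM a hinj z _ haz
    (kumCocycle_flat_levelM hdivM hsmM (a z) haz hX3)

end Inj

/-! ### Descent to level `p` -/

section K2

variable {ℓ : ℕ} [Fact ℓ.Prime] {r k e d d' : ℕ} [NeZero r]
  {Jp JM : Type} [AddCommGroup Jp] [DistribMulAction GQ Jp] [AddCommGroup JM] [DistribMulAction GQ JM]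

omit [Fact ℓ.Prime] in
/-- **(K2), arbitrary division point, from level-`M` flatness.**  `a = π^* : J_p → J_M`, `b = π_* : J_M → J_p`,
`b ∘ a = d = r^e * d'`, `r ∤ d'`.  If `y₁` is an `r^(k+e)`-division point of the rational point `r^k • z` and
the Kummer cocycle of `a y₁` (modulus `r^(k+e)`, level `M`) is flat, then the Kummer cocycle of `z` (modulus
`r^k`, level `p`) is flat at `ℓ`. -/
theorem kumCocycle_flat_of_levelM
    (hdivk : ∀ x : Jp, ∃ y : Jp, r ^ k • y = x) (hdivke : ∀ x : Jp, ∃ y : Jp, r ^ (k + e) • y = x)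
    (hdivM : ∀ x : JM, ∃ y : JM, r ^ (k + e) • y = x)
    (hsmp : IsSmooth galLevel Jp) (hsmM : IsSmooth galLevel JM)
    (a : Jp →+[GQ] JM) (b : JM →+[GQ] Jp) (hba : ∀ x : Jp, b (a x) = d • x)
    (hd : d = r ^ e * d') (hd' : Nat.Coprime d' r)
    (hVk : HasFlatModel ℓ (tors (Γ := GQ) Jp (r ^ k)).W (modAct _))
    (hVke : HasFlatModel ℓ (tors (Γ := GQ) Jp (r ^ (k + e))).W (modAct _))
    (z : Jp) (hz : ∀ g : GQ, g • (r ^ k • z) = r ^ k • z)
    (y₁ : Jp) (hy₁ : r ^ (k + e) • y₁ = r ^ k • z)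
    (hay : ∀ g : GQ, g • (r ^ (k + e) • a y₁) = r ^ (k + e) • a y₁)
    (hflatM : IsFlatCochain ℓ (r ^ (k + e)) (kumCocycle galLevel hdivM hsmM (a y₁) hay).1) :
    IsFlatCochain ℓ (r ^ k) (kumCocycle galLevel hdivk hsmp z hz).1 := by
  have : NeZero (r ^ k) := ⟨pow_ne_zero _ (NeZero.ne r)⟩
  have hy : ∀ g : GQ, g • (r ^ (k + e) • y₁) = r ^ (k + e) • y₁ := fun g => by rw [hy₁]; exact hz g
  have hpow : ∀ t : Jp, r ^ k • (r ^ e • t) = r ^ (k + e) • t := fun t => by
    rw [pow_add, mul_nsmul']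
  have hyk : ∀ g : GQ, g • (r ^ k • (r ^ e • y₁)) = r ^ k • (r ^ e • y₁) := fun g => by
    rw [hpow, hy g]
  have h1 := kumCocycle_flat_of_level_transfer hdivk hdivke hdivM hsmp hsmM a b hba hd hd' hVk hVke
    y₁ hy hyk hay hflatM
  -- `v = z - r^e • y₁ ∈ J_p[r^k]`
  have hv : r ^ k • (z - r ^ e • y₁) = 0 := by
    rw [smul_sub, hpow, hy₁, sub_self]
  refine h1.congr (fun v => Subtype.ext v.2) (⟨z - r ^ e • y₁, hv⟩ : (tors (Γ := GQ) Jp (r ^ k)).W)
    (fun σ => ?_)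
  apply Subtype.ext
  rw [AddSubgroup.coe_add, AddSubgroup.coe_sub, StableSub.coe_smul, kumCocycle_apply, kumCocycle_apply]
  show σ • z - z = σ • r ^ e • y₁ - r ^ e • y₁ + (σ • (z - r ^ e • y₁) - (z - r ^ e • y₁))
  rw [smul_sub]
  abel

/-- **(K2) in the shape of `FlatCond42.kumSel_mem_selF`, X3 in the small shape**: `x` a rational point of `J_p`,
`z` ANY division point, `r^k • z = x`; X3 is needed for (the image in `J_M` of) ONE `r^(k+e)`-division point of
`x`. -/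
theorem hK2_of_X3
    (hdivk : ∀ x : Jp, ∃ y : Jp, r ^ k • y = x) (hdivke : ∀ x : Jp, ∃ y : Jp, r ^ (k + e) • y = x)
    (hdivM : ∀ x : JM, ∃ y : JM, r ^ (k + e) • y = x)
    (hsmp : IsSmooth galLevel Jp) (hsmM : IsSmooth galLevel JM)
    (a : Jp →+[GQ] JM) (b : JM →+[GQ] Jp) (hba : ∀ x : Jp, b (a x) = d • x)
    (hd : d = r ^ e * d') (hd' : Nat.Coprime d' r)
    (hVk : HasFlatModel ℓ (tors (Γ := GQ) Jp (r ^ k)).W (modAct _))
    (hVke : HasFlatModel ℓ (tors (Γ := GQ) Jp (r ^ (k + e))).W (modAct _))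
    [Finite (tors (Γ := GQ) JM (r ^ (k + e))).W]
    (x : Inv (⊤ : Subgroup GQ) Jp) (z : Jp) (hz : r ^ k • z = x.1)
    (hX3 : ∃ y₁ : Jp, r ^ (k + e) • y₁ = x.1 ∧ KummerX3 ℓ (r ^ (k + e)) JM (a y₁)) :
    IsFlatCochain ℓ (r ^ k) (kumCocycle galLevel hdivk hsmp z (fun g => by
      rw [hz]; exact mem_Inv_top.1 x.2 g)).1 := by
  have : NeZero (r ^ (k + e)) := ⟨pow_ne_zero _ (NeZero.ne r)⟩
  obtain ⟨y₁, hy₁, h3⟩ := hX3
  have hay : ∀ g : GQ, g • (r ^ (k + e) • a y₁) = r ^ (k + e) • a y₁ := fun g => by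
    rw [← map_nsmul, ← map_smul, hy₁, mem_Inv_top.1 x.2 g]
  exact kumCocycle_flat_of_levelM hdivk hdivke hdivM hsmp hsmM a b hba hd hd' hVk hVke z _ y₁
    (hy₁.trans hz.symm) hay (kumCocycle_flat_levelM hdivM hsmM (a y₁) hay h3)

/-- **(K2) in the shape of `FlatCond42.kumSel_mem_selF`, X3 in the sub shape.** -/
theorem hK2_of_sub
    (hdivk : ∀ x : Jp, ∃ y : Jp, r ^ k • y = x) (hdivke : ∀ x : Jp, ∃ y : Jp, r ^ (k + e) • y = x)
    (hdivM : ∀ x : JM, ∃ y : JM, r ^ (k + e) • y = x)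
    (hsmp : IsSmooth galLevel Jp) (hsmM : IsSmooth galLevel JM)
    (a : Jp →+[GQ] JM) (b : JM →+[GQ] Jp) (hba : ∀ x : Jp, b (a x) = d • x)
    (hd : d = r ^ e * d') (hd' : Nat.Coprime d' r)
    (hVk : HasFlatModel ℓ (tors (Γ := GQ) Jp (r ^ k)).W (modAct _))
    (hVke : HasFlatModel ℓ (tors (Γ := GQ) Jp (r ^ (k + e))).W (modAct _))
    [Finite (tors (Γ := GQ) JM (r ^ (k + e))).W]
    (x : Inv (⊤ : Subgroup GQ) Jp) (z : Jp) (hz : r ^ k • z = x.1)
    (hX3 : ∃ y₁ : Jp, r ^ (k + e) • y₁ = x.1 ∧ KummerX3Sub ℓ (r ^ (k + e)) JM (a y₁)) :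
    IsFlatCochain ℓ (r ^ k) (kumCocycle galLevel hdivk hsmp z (fun g => by
      rw [hz]; exact mem_Inv_top.1 x.2 g)).1 := by
  have : NeZero (r ^ (k + e)) := ⟨pow_ne_zero _ (NeZero.ne r)⟩
  obtain ⟨y₁, hy₁, h3⟩ := hX3
  have hay : ∀ g : GQ, g • (r ^ (k + e) • a y₁) = r ^ (k + e) • a y₁ := fun g => by
    rw [← map_nsmul, ← map_smul, hy₁, mem_Inv_top.1 x.2 g]
  exact kumCocycle_flat_of_levelM hdivk hdivke hdivM hsmp hsmM a b hba hd hd' hVk hVke z _ y₁
    (hy₁.trans hz.symm) hay (kumCocycle_flat_levelM_of_sub hdivM hsmM (a y₁) hay h3)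

end K2

end Fermat.Agent.MAZ.KumFlat97
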