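/-
Programme MAZ (S15), brick K2-ASM, concrete form (helper97): **(K2) for `J₀(p)`**.

`J_p = JZero p`, `J_M = JZero (auxLevel ℓ p)` (`lcm p 4`, or `lcm p 9` if `ℓ = 2`), `a = π^* = levelPullback`,
which is `G_ℚ`-equivariant and injective on torsion (`ES/RED/PullbackInj12`).  Smoothness is
`ES/GAL/OpenStab12.hasLevel_pic0`, finiteness of the torsion is `ES/KUM/FiniteTorsion15`.

* `levelPullbackEquiv` : `π^*` as a `→+[G_ℚ]`;
* `isSmooth_JZero`     : `IsSmooth galLevel (JZero N)`;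
* `finite_tors_JZero`  : `Finite (tors (JZero M) n).W`;
* **`hK2_JZero`** : for a rational point `x` of `J₀(p)` and ANY division point `z` (`n • z = x`), the Kummer
  cocycle of `z` is flat at `ℓ`, given X3 (sub shape, `KummerX3Sub`) for `π^* z` at level `auxLevel ℓ p`.
  This is the (K2) clause of `hK` in `FinAbs19.eisenstein_fin_of_kummer` (there `ℓ = r`, `n = r ^ k`).
-/
import Fermat.Agent.MAZ.KumFlat97.K2
import Fermat.Agent.ES.RED.PullbackInj12
import Fermat.Agent.ES.GAL.OpenStab12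
import Fermat.Agent.ES.KUM.FiniteTorsion15

set_option autoImplicit false

noncomputable section

namespace Fermat.Agent.MAZ.KumFlat97

open Fermat.Agent.Flat44 Fermat.Agent.MAZ.FlatCond42 Fermat.Agent.MAZ.SelCoh42 Fermat.Agent.MAZ.Kum5
open ModularCurve Fermat.Agent.RED.Interface4 Fermat.Agent.ES.HECKE.LevelPullback12
  Fermat.Agent.ES.RED.PullbackInj12

/-- `π^* : J₀(N) → J₀(M)` as a `G_ℚ`-equivariant map. -/
def levelPullbackEquiv {N M : ℕ} [NeZero N] [NeZero M] (h : N ∣ M) : JZero N →+[GQ] JZero M where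
  toFun := levelPullback h
  map_smul' σ x := levelPullback_smul h σ x
  map_zero' := map_zero _
  map_add' := map_add _

@[simp] theorem levelPullbackEquiv_apply {N M : ℕ} [NeZero N] [NeZero M] (h : N ∣ M) (x : JZero N) :
    levelPullbackEquiv h x = levelPullback h x := rfl

/-- Every point of `J₀(N)(ℚ̄)` has an open stabiliser. -/
theorem isSmooth_JZero (N : ℕ) [NeZero N] : IsSmooth galLevel (JZero N) := by
  intro y
  obtain ⟨L, hL, H⟩ := Fermat.Agent.ES.GAL.OpenStab12.hasLevel_pic0 (N := N) y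
  exact ⟨L.fixingSubgroup, ⟨L, hL, rfl⟩,
    fun s hs => H s ((IntermediateField.mem_fixingSubgroup_iff L s).1 hs)⟩

/-- `J₀(M)[n]` is finite, in the `Kum5.tors` form. -/
theorem finite_tors_JZero (M : ℕ) [NeZero M] (n : ℕ) [NeZero n] :
    Finite (tors (Γ := GQ) (JZero M) n).W :=
  (Fermat.Agent.ES.KUM.FiniteTorsion15.finite_setOf_nsmul_eq_zero M n).to_subtype

/-- **(K2) for `J₀(p)`**: the Kummer cocycle of ANY division point `z` of a rational point `x` is flat at
`ℓ`, given X3 for `π^* z` at the auxiliary level. -/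
theorem hK2_JZero (p : ℕ) [NeZero p] (ℓ : ℕ) [Fact ℓ.Prime] (n : ℕ) [NeZero n]
    (hdivp : ∀ x : JZero p, ∃ y : JZero p, n • y = x) (hsmp : IsSmooth galLevel (JZero p))
    (hdivM : haveI := Fermat.Agent.RED.LVL.LevelDegree17.neZero_auxLevel ℓ p
      ∀ x : JZero (auxLevel ℓ p), ∃ y : JZero (auxLevel ℓ p), n • y = x)
    (x : Inv (⊤ : Subgroup GQ) (JZero p)) (z : JZero p) (hz : n • z = x.1)
    (hX3 : haveI := Fermat.Agent.RED.LVL.LevelDegree17.neZero_auxLevel ℓ p
      KummerX3Sub ℓ n (JZero (auxLevel ℓ p)) (levelPullback (dvd_auxLevel ℓ p) z)) :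
    IsFlatCochain ℓ n (kumCocycle galLevel hdivp hsmp z (fun g => by
      rw [hz]; exact mem_Inv_top.1 x.2 g)).1 := by
  have := Fermat.Agent.RED.LVL.LevelDegree17.neZero_auxLevel ℓ p
  have := finite_tors_JZero (auxLevel ℓ p) n
  exact hK2_of_sub_inj hdivp hdivM hsmp (isSmooth_JZero (auxLevel ℓ p))
    (levelPullbackEquiv (dvd_auxLevel ℓ p))
    (fun y hy hy0 => levelPullback_auxLevel_eq_zero ℓ p n (Nat.pos_of_ne_zero (NeZero.ne n)) y hy hy0)
    x z hz hX3

end Fermat.Agent.MAZ.KumFlat97
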