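/-
Programme MAZ (S15), brick K2-ASM, last mile (helper97): **X3 from a hub package**, hence (K2) for `J₀(p)` from the
outputs of T1A alone.

helper59's `KumFlat59.modCoordData_of_package_sub` gives arithmetic local analytic group data for every
finitely generated `G_ℓ`-stable subgroup `S ≤ J₀(M)` with finitely many representatives modulo fixed elements,
from a hub package `P : HubPackage ℓ M` and a chart isomorphism family.  For `S = J₀(M)[n] ⊔ ℤ w`
(`KumFlat59.supPoint`), `n • w` fixed by `G_ℓ`, this is `KummerX3Sub ℓ n (JZero M) w`.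

* `kummerX3Sub_of_package` : `KummerX3Sub ℓ n (JZero M) w` from `P`, `Fam`;
* **`hK2_JZero_of_package`** : (K2) for every rational point `x` of `J₀(p)` and every division point `z`,
  from a hub package + chart isomorphism family at the auxiliary level `auxLevel ℓ p` (`ℓ ∤ p`).
-/
import Fermat.Agent.MAZ.KumFlat97.K2JZero
import Fermat.Agent.MAZ.KumFlat59.PackageSub
import Fermat.Agent.MAZ.KumFlat59.SupPoint

set_option autoImplicit false

noncomputable section

namespace Fermat.Agent.MAZ.KumFlat97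

open Fermat.Agent.Flat44 Fermat.Agent.MAZ.FlatCond42 Fermat.Agent.MAZ.SelCoh42 Fermat.Agent.MAZ.Kum5
open Fermat.Agent.TW.B5.Iface Fermat.Agent.T1.Assembly41
open ModularCurve Fermat.Agent.RED.Interface4 Fermat.Agent.ES.HECKE.LevelPullback12
  Fermat.Agent.MAZ.KumFlat59

/-- **X3 (sub shape) from a hub package**: for `w : J₀(M)` with `n • w` fixed by `G_ℓ`. -/
theorem kummerX3Sub_of_package (ℓ : ℕ) [Fact ℓ.Prime] (M : ℕ) [NeZero M] (hℓM : ¬ ℓ ∣ M)
    (P : HubPackage ℓ M) (Fam : Fermat.Agent.T1.Dict59.ChartIsoFamily ℓ M P.c0 P.H) (n : ℕ) [NeZero n] (w : JZero M)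
    (hw : ∀ σ : Gp ℓ, localGaloisToGlobal ℓ σ • (n • w) = n • w) :
    KummerX3Sub ℓ n (JZero M) w := by
  have hfin : Finite ↥(tors (Γ := GQ) (JZero M) n).W := finite_tors_JZero M n
  have hV : ∀ (σ : Gp ℓ) (y : JZero M), y ∈ (tors (Γ := GQ) (JZero M) n).W →
      localGaloisToGlobal ℓ σ • y ∈ (tors (Γ := GQ) (JZero M) n).W :=
    fun σ y hy => (tors (Γ := GQ) (JZero M) n).stable _ y hy
  have hy0 : ∀ σ : Gp ℓ, localGaloisToGlobal ℓ σ • w - w ∈ (tors (Γ := GQ) (JZero M) n).W := by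
    intro σ
    have h1 : localGaloisToGlobal ℓ σ • (n • w) = n • (localGaloisToGlobal ℓ σ • w) :=
      map_nsmul (DistribSMul.toAddMonoidHom (JZero M) (localGaloisToGlobal ℓ σ)) n w
    show n • (localGaloisToGlobal ℓ σ • w - w) = 0
    rw [nsmul_sub, ← h1, hw σ, sub_self]
  have hS := stable_supPoint ℓ (tors (Γ := GQ) (JZero M) n).W w hV hy0
  obtain ⟨A, iA, ⟨D⟩⟩ := modCoordData_of_package_sub ℓ M hℓM P Fam
    (supPoint M (tors (Γ := GQ) (JZero M) n).W w) (fg_supPoint _ w) hS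
    (hasFiniteReps_supPoint ℓ _ w n (Nat.pos_of_ne_zero (NeZero.ne n)) hw hS)
  exact ⟨supPoint M (tors (Γ := GQ) (JZero M) n).W w, hS, le_supPoint _ w, mem_supPoint_self _ w,
    A, iA, ⟨D⟩⟩

/-- **(K2) for `J₀(p)` from T1A's outputs at the auxiliary level**: the Kummer cocycle of ANY division
point `z` of a rational point `x` of `J₀(p)` is flat at `ℓ ∤ p`. -/
theorem hK2_JZero_of_package (p : ℕ) [NeZero p] (ℓ : ℕ) [Fact ℓ.Prime] (hℓp : ¬ ℓ ∣ p)
    (hP : ∃ (_ : NeZero (auxLevel ℓ p)) (P : HubPackage ℓ (auxLevel ℓ p)),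
      Nonempty (Fermat.Agent.T1.Dict59.ChartIsoFamily ℓ (auxLevel ℓ p) P.c0 P.H))
    (n : ℕ) [NeZero n]
    (hdivp : ∀ x : JZero p, ∃ y : JZero p, n • y = x) (hsmp : IsSmooth galLevel (JZero p))
    (hdivM : haveI := Fermat.Agent.RED.LVL.LevelDegree17.neZero_auxLevel ℓ p
      ∀ x : JZero (auxLevel ℓ p), ∃ y : JZero (auxLevel ℓ p), n • y = x)
    (x : Inv (⊤ : Subgroup GQ) (JZero p)) (z : JZero p) (hz : n • z = x.1) :
    IsFlatCochain ℓ n (kumCocycle galLevel hdivp hsmp z (fun g => by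
      rw [hz]; exact mem_Inv_top.1 x.2 g)).1 := by
  have hne := Fermat.Agent.RED.LVL.LevelDegree17.neZero_auxLevel ℓ p
  obtain ⟨_, P, ⟨Fam⟩⟩ := hP
  refine hK2_JZero p ℓ n hdivp hsmp hdivM x z hz ?_
  refine kummerX3Sub_of_package ℓ (auxLevel ℓ p) (not_dvd_auxLevel Fact.out hℓp) P Fam n _ (fun σ => ?_)
  rw [← map_nsmul, hz, ← Fermat.Agent.ES.RED.PullbackInj12.levelPullback_smul,
    mem_Inv_top.1 x.2]

end Fermat.Agent.MAZ.KumFlat97
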